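/-
S56 / W5 leaf L8 (one Taylor-Wiles prime for one class), helper lemmas.  helper8.

* `st_charpoly_pow`, `st_isRegular_pow`, `st_isRegular_conj` : regular elements;
* `st_coc_pow`, `st_inRange_of_conj` : cocycle identities;
* `st_exists_level_le` : finitely many levels have a common lower bound;
* `st_exists_place_frobenius` : every prime has a place and a Frobenius element over it.
-/
import Fermat.Agent.S56.TW.Hyp
import Fermat.Agent.Lib.FrobDensity.Bridge
import Fermat.Agent.Lib.FrobDensity.Consumer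

set_option autoImplicit false

namespace Fermat.Agent.S56.TW

open Fermat.Agent.F4 Polynomial

variable {k : Type} [Field k]

/-! ### regular elements -/

theorem st_matrix_charpoly_diag (a b : k) :
    (Matrix.diagonal ![a, b] : Matrix (Fin 2) (Fin 2) k).charpoly = (X - C a) * (X - C b) := by
  rw [Matrix.charpoly_fin_two]
  simp only [Matrix.trace_fin_two, Matrix.det_fin_two, Matrix.diagonal_apply_eq,
    Matrix.diagonal_apply_ne, Matrix.cons_val_zero, Matrix.cons_val_one, ne_eq,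
    zero_ne_one, one_ne_zero, not_false_eq_true, mul_zero, sub_zero, map_add, map_mul]
  ring

/-- The characteristic polynomial of a power, in dimension two. -/
theorem st_charpoly_pow {V : Type} [AddCommGroup V] [Module k V] [Module.Finite k V]
    (hV : Module.finrank k V = 2) (f : Module.End k V) (a b : k)
    (h : LinearMap.charpoly f = (X - C a) * (X - C b)) (m : ℕ) :
    LinearMap.charpoly (f ^ m) = (X - C (a ^ m)) * (X - C (b ^ m)) := by
  classical
  let bs : Module.Basis (Fin 2) k V := Module.finBasisOfFinrankEq k V hV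
  have h1 : (LinearMap.toMatrix bs bs f).charpoly =
      (Matrix.diagonal ![a, b] : Matrix (Fin 2) (Fin 2) k).charpoly := by
    rw [LinearMap.charpoly_toMatrix, h, st_matrix_charpoly_diag]
  have h2 := Fermat.Agent.FrobDensity.consumer_charpoly_pow_eq _ _ h1 m
  rw [← LinearMap.charpoly_toMatrix (f ^ m) bs, ← LinearMap.toMatrix_pow, h2, Matrix.diagonal_pow,
    ← st_matrix_charpoly_diag]
  congr 2
  ext i
  fin_cases i <;> simp

/-- If `f` is regular and `f = (f ^ m) ^ j` then `f ^ m` is regular. -/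
theorem st_regular_pow {V : Type} [AddCommGroup V] [Module k V] [Module.Finite k V]
    (hV : Module.finrank k V = 2) (f : Module.End k V) (m j : ℕ) (hfj : f = (f ^ m) ^ j)
    (hreg : ∃ a b : k, a ≠ b ∧ LinearMap.charpoly f = (X - C a) * (X - C b)) :
    ∃ a b : k, a ≠ b ∧ LinearMap.charpoly (f ^ m) = (X - C a) * (X - C b) := by
  obtain ⟨a, b, hab, h⟩ := hreg
  have h1 := st_charpoly_pow hV f a b h m
  refine ⟨a ^ m, b ^ m, fun heq => hab ?_, h1⟩
  have h2 := st_charpoly_pow hV (f ^ m) (a ^ m) (b ^ m) h1 j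
  rw [← hfj, h, heq] at h2
  -- evaluate at `a` and at `b`
  have ha := congrArg (Polynomial.eval a) h2
  have hb := congrArg (Polynomial.eval b) h2
  simp only [eval_mul, eval_sub, eval_X, eval_C, sub_self, zero_mul, mul_zero] at ha hb
  have ha' : a = (b ^ m) ^ j := by
    rcases mul_self_eq_zero.mp ha.symm with h0
    exact sub_eq_zero.mp h0
  have hb' : b = (b ^ m) ^ j := by
    rcases mul_self_eq_zero.mp hb.symm with h0
    exact sub_eq_zero.mp h0
  rw [ha', ← hb']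

theorem st_isRegular_pow (ρbar : ResidualGaloisRep k) (g : GQ) (m j : ℕ)
    (hgj : ρbar.ρ g = ρbar.ρ ((g ^ m) ^ j)) (hreg : IsRegular ρbar g) :
    IsRegular ρbar (g ^ m) := by
  unfold IsRegular at hreg ⊢
  rw [map_pow]
  refine st_regular_pow ρbar.finrank_eq (ρbar.ρ g) m j ?_ hreg
  calc ρbar.ρ g = ρbar.ρ ((g ^ m) ^ j) := hgj
    _ = (ρbar.ρ g ^ m) ^ j := by rw [map_pow, map_pow]

theorem st_isRegular_conj (ρbar : ResidualGaloisRep k) (h σ φ : GQ)
    (hφ : ρbar.ρ φ = ρbar.ρ (σ * h * σ⁻¹)) (hreg : IsRegular ρbar h) : IsRegular ρbar φ := by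
  obtain ⟨a, b, hab, hc⟩ := hreg
  refine ⟨a, b, hab, ?_⟩
  rw [hφ, ← hc]
  have h1 : ρbar.ρ σ * ρbar.ρ σ⁻¹ = 1 := by rw [← map_mul, mul_inv_cancel, map_one]
  have h2 : ρbar.ρ σ⁻¹ * ρbar.ρ σ = 1 := by rw [← map_mul, inv_mul_cancel, map_one]
  let e : ρbar.V ≃ₗ[k] ρbar.V :=
    { (ρbar.ρ σ) with
      invFun := ρbar.ρ σ⁻¹
      left_inv := fun x => by
        show (ρbar.ρ σ⁻¹ * ρbar.ρ σ) x = x
        rw [h2]; rfl
      right_inv := fun x => by
        show (ρbar.ρ σ * ρbar.ρ σ⁻¹) x = x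
        rw [h1]; rfl }
  have h3 : ρbar.ρ (σ * h * σ⁻¹) = e.conj (ρbar.ρ h) := by
    rw [map_mul, map_mul]
    rfl
  rw [h3]
  exact LinearEquiv.charpoly_conj e (ρbar.ρ h)

/-! ### cocycle identities -/

theorem st_coc_one (N : Rep k GQ) (c : GQ → N) (hc : IsCoc N c) : c 1 = 0 := by
  have h := hc 1 1
  rw [mul_one, map_one] at h
  simpa using h

theorem st_coc_pow (N : Rep k GQ) (c : GQ → N) (hc : IsCoc N c) (h : GQ) (y : N)
    (hy : c h = N.ρ h y - y) (j : ℕ) : c (h ^ j) = N.ρ (h ^ j) y - y := by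
  induction j with
  | zero => rw [pow_zero, st_coc_one N c hc, map_one]; simp
  | succ j ih =>
    rw [pow_succ', hc, ih, hy, map_mul]
    simp only [map_sub, Module.End.mul_apply]
    abel

/-- If `c (σ h σ⁻¹) ∈ (σ h σ⁻¹ - 1) N` then `c h ∈ (h - 1) N`. -/
theorem st_inRange_of_conj (N : Rep k GQ) (c : GQ → N) (hc : IsCoc N c) (h σ : GQ)
    (hin : InRange N c (σ * h * σ⁻¹)) : InRange N c h := by
  obtain ⟨y, hy⟩ := hin
  -- `c (σ h) = c ((σ h σ⁻¹) σ) = ρ(σ h σ⁻¹) c σ + c (σ h σ⁻¹)`, `c (σ h) = ρ σ (c h) + c σ`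
  have h1 : c (σ * h) = N.ρ (σ * h * σ⁻¹) (c σ) + c (σ * h * σ⁻¹) := by
    rw [← hc]
    congr 1
    group
  have h2 : c (σ * h) = N.ρ σ (c h) + c σ := hc σ h
  have h3 : N.ρ σ (c h) = N.ρ (σ * h * σ⁻¹) (c σ + y) - (c σ + y) := by
    have : N.ρ σ (c h) = N.ρ (σ * h * σ⁻¹) (c σ) + c (σ * h * σ⁻¹) - c σ := by
      rw [← h1, h2]; abel
    rw [this, hy, map_add]
    abel
  refine ⟨N.ρ σ⁻¹ (c σ + y), ?_⟩
  have h4 : N.ρ σ⁻¹ (N.ρ σ (c h)) = c h := by
    rw [← Module.End.mul_apply, ← map_mul, inv_mul_cancel, map_one]; rfl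
  rw [← h4, h3, map_sub]
  congr 1
  rw [← Module.End.mul_apply, ← map_mul, ← Module.End.mul_apply, ← map_mul]
  congr 2
  group

/-! ### levels -/

/-- Finitely many levels have a common lower bound. -/
theorem st_exists_level_le {G : Type} [Group G] (𝓤 : Levels G) {ι : Type*} (T : Finset ι)
    (U : ι → Subgroup G) (hU : ∀ i ∈ T, U i ∈ 𝓤.sets) :
    ∃ W ∈ 𝓤.sets, ∀ i ∈ T, W ≤ U i := by
  classical
  induction T using Finset.induction_on with
  | empty =>
    obtain ⟨W, hW⟩ := 𝓤.nonempty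
    exact ⟨W, hW, fun i hi => absurd hi (Finset.notMem_empty i)⟩
  | insert a T _ ih =>
    obtain ⟨W, hW, hWle⟩ := ih (fun i hi => hU i (Finset.mem_insert_of_mem hi))
    obtain ⟨W', hW', hW'le⟩ := 𝓤.directed W hW (U a) (hU a (Finset.mem_insert_self a T))
    refine ⟨W', hW', fun i hi => ?_⟩
    rcases Finset.mem_insert.mp hi with rfl | hi
    · exact hW'le.trans inf_le_right
    · exact (hW'le.trans inf_le_left).trans (hWle i hi)

/-! ### places -/

/-- Every prime has a place and a Frobenius element over it. -/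
theorem st_exists_place_frobenius (q : ℕ) (hq : q.Prime) :
    ∃ (P : ValuationSubring (AlgebraicClosure ℚ)) (φ : GQ),
      P.LiesOverPrime q ∧ P.IsFrobeniusAt φ q := by
  obtain ⟨A, -, hA⟩ := Fermat.Agent.FrobBridge.exists_valuationSubring_image_subset_nonunits
    (Int.castRingHom (AlgebraicClosure ℚ)) (Ideal.span {(q : ℤ)})
    (by
      rw [Ne, Ideal.span_singleton_eq_top]
      exact (Nat.prime_iff_prime_int.mp hq).not_isUnit)
    (by exact_mod_cast (Int.cast_injective (α := AlgebraicClosure ℚ)))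
  have hAq : A.LiesOverPrime q := by
    have := hA (q : ℤ) (Ideal.mem_span_singleton_self _)
    unfold ValuationSubring.LiesOverPrime
    simpa using this
  obtain ⟨φ, hφ, -⟩ := Fermat.Agent.FrobBridge.exists_isFrobeniusAt_of_liesOver A q hq hAq
  exact ⟨A, φ, hAq, hφ⟩

/-! ### trivial action of the kernel of `ρbar` -/

theorem st_ρ_inv_of_ker (ρbar : ResidualGaloisRep k) (u : GQ) (hu : ρbar.ρ u = 1) :
    ρbar.ρ u⁻¹ = 1 := by
  have h : ρbar.ρ u⁻¹ * ρbar.ρ u = 1 := by rw [← map_mul, inv_mul_cancel, map_one]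
  rwa [hu, mul_one] at h

theorem st_ad0_ρ_of_ker (ρbar : ResidualGaloisRep k) (u : GQ) (hu : ρbar.ρ u = 1)
    (a : ad0 ρbar) : (ad0 ρbar).ρ u a = a := by
  have h2 : ρbar.ρ u⁻¹ = 1 := st_ρ_inv_of_ker ρbar u hu
  apply Subtype.ext
  show ρbar.ρ u * ((a : ↥(ad0Sub ρbar)).1 * ρbar.ρ u⁻¹) = (a : ↥(ad0Sub ρbar)).1
  rw [hu, h2, mul_one, one_mul]

theorem st_ad0Dual_ρ_of_ker (ρbar : ResidualGaloisRep k) (u : GQ) (hu : ρbar.ρ u = 1)
    (f : ad0Dual ρbar) : (ad0Dual ρbar).ρ u f = f := by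
  have hdet : ((detChar ρbar u : kˣ) : k) = 1 := by
    show LinearMap.det (ρbar.ρ u) = 1
    rw [hu, map_one]
  have key : ∀ f' : Module.Dual k (ad0 ρbar),
      ((ad0 ρbar).dualTwist (detChar ρbar)).ρ u f' = f' := by
    intro f'
    rw [Rep.dualTwist_ρ_apply, hdet, one_smul]
    refine LinearMap.ext fun m => ?_
    show f' ((ad0 ρbar).ρ u⁻¹ m) = f' m
    rw [st_ad0_ρ_of_ker ρbar u⁻¹ (st_ρ_inv_of_ker ρbar u hu) m]
  exact key f

/-- `ρ_N (g * u) = ρ_N g` if `ρbar u = 1`. -/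
theorem st_ad0Dual_ρ_mul_of_ker (ρbar : ResidualGaloisRep k) (g u : GQ) (hu : ρbar.ρ u = 1)
    (f : ad0Dual ρbar) : (ad0Dual ρbar).ρ (g * u) f = (ad0Dual ρbar).ρ g f := by
  rw [map_mul, Module.End.mul_apply, st_ad0Dual_ρ_of_ker ρbar u hu]

/-! ### roots of unity -/

theorem st_fixesRoots_pow (m : ℕ) (g : GQ) (hg : FixesRoots m g) (j : ℕ) :
    FixesRoots m (g ^ j) := by
  intro t ht
  induction j with
  | zero => rw [pow_zero]; rfl
  | succ j ih =>
    rw [pow_succ]
    show (g ^ j) (g t) = t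
    rw [hg t ht, ih]

/-! ### linear algebra -/

theorem st_mem_of_map_mem {M Q : Type*} [AddCommGroup M] [Module k M] [AddCommGroup Q]
    [Module k Q] (π : M →ₗ[k] Q) (Z : Submodule k M) (hker : LinearMap.ker π ≤ Z) (c : M)
    (h : π c ∈ Z.map π) : c ∈ Z := by
  obtain ⟨c', hc', hcc'⟩ := h
  have h1 : c - c' ∈ LinearMap.ker π := by
    rw [LinearMap.mem_ker, map_sub, hcc', sub_self]
  have h2 := Z.add_mem (hker h1) hc'
  rwa [sub_add_cancel] at h2

/-! ### smooth cocycles -/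

/-- The kernel of the class map consists of the coboundaries. -/
theorem st_ker_H1smπ (N : Rep k GQ) (c : ↥(Z1 levelsAll N))
    (hc : c ∈ LinearMap.ker (H1smπ levelsAll N)) :
    ∃ y : N, ∀ g : GQ, c.1 g = N.ρ g y - y := by
  rw [Submodule.ker_mkQ] at hc
  obtain ⟨y, hy⟩ := hc
  exact ⟨y, fun g => (congrFun hy g).symm⟩

theorem st_H1smπ_eq_zero (N : Rep k GQ) (c : ↥(Z1 levelsAll N)) (y : N)
    (hy : ∀ g : GQ, c.1 g = N.ρ g y - y) : H1smπ levelsAll N c = 0 := by
  rw [← LinearMap.mem_ker, Submodule.ker_mkQ]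
  exact ⟨y, funext fun g => (hy g).symm⟩

/-- The cocycles whose value at `h` lies in `(h - 1) N`. -/
def stZh (N : Rep k GQ) (h : GQ) : Submodule k ↥(Z1 levelsAll N) where
  carrier := {c | InRange N c.1 h}
  add_mem' := by
    rintro c c' ⟨y, hy⟩ ⟨y', hy'⟩
    refine ⟨y + y', ?_⟩
    show c.1 h + c'.1 h = _
    rw [hy, hy', map_add]
    abel
  zero_mem' := ⟨0, by
    show (0 : N) = _
    rw [map_zero, sub_zero]⟩
  smul_mem' := by
    rintro a c ⟨y, hy⟩
    refine ⟨a • y, ?_⟩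
    show a • c.1 h = _
    rw [hy, map_smul, smul_sub]

theorem st_mem_stZh (N : Rep k GQ) (h : GQ) (c : ↥(Z1 levelsAll N)) :
    c ∈ stZh N h ↔ InRange N c.1 h := Iff.rfl

theorem st_ker_le_stZh (N : Rep k GQ) (h : GQ) :
    LinearMap.ker (H1smπ levelsAll N) ≤ stZh N h := by
  intro c hc
  obtain ⟨y, hy⟩ := st_ker_H1smπ N c hc
  exact ⟨y, hy h⟩

/-- The cocycles which are right-invariant under `W`. -/
def stZW (N : Rep k GQ) (W : Subgroup GQ) : Submodule k ↥(Z1 levelsAll N) where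
  carrier := {c | ∀ g s, s ∈ W → c.1 (g * s) = c.1 g}
  add_mem' := by
    intro c c' hc hc' g s hs
    show c.1 (g * s) + c'.1 (g * s) = c.1 g + c'.1 g
    rw [hc g s hs, hc' g s hs]
  zero_mem' := fun _ _ _ => rfl
  smul_mem' := by
    intro a c hc g s hs
    show a • c.1 (g * s) = a • c.1 g
    rw [hc g s hs]

theorem st_mem_stZW (N : Rep k GQ) (W : Subgroup GQ) (c : ↥(Z1 levelsAll N)) :
    c ∈ stZW N W ↔ ∀ g s, s ∈ W → c.1 (g * s) = c.1 g := Iff.rfl

theorem st_ker_le_stZW (N : Rep k GQ) (W : Subgroup GQ)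
    (hW : ∀ s ∈ W, ∀ y : N, N.ρ s y = y) :
    LinearMap.ker (H1smπ levelsAll N) ≤ stZW N W := by
  intro c hc
  obtain ⟨y, hy⟩ := st_ker_H1smπ N c hc
  intro g s hs
  rw [hy, hy, map_mul, Module.End.mul_apply, hW s hs]

/-- Every class of a finite-dimensional space `Ψ` of smooth classes is represented by
right-`W`-invariant cocycles only, for a suitable level `W` below a given level `U₀` on which the
action is trivial. -/
theorem st_exists_level_invariant (N : Rep k GQ) (Ψ : Submodule k (H1sm levelsAll N))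
    (hΨ : FiniteDimensional k Ψ) (U₀ : Subgroup GQ) (hU₀ : U₀ ∈ levelsAll.sets)
    (htriv : ∀ s ∈ U₀, ∀ y : N, N.ρ s y = y) :
    ∃ W ∈ levelsAll.sets, W ≤ U₀ ∧
      ∀ c : ↥(Z1 levelsAll N), H1smπ levelsAll N c ∈ Ψ →
        ∀ g s, s ∈ W → c.1 (g * s) = c.1 g := by
  classical
  have hfg : Ψ.FG := (Submodule.fg_iff_finiteDimensional Ψ).2 hΨ
  obtain ⟨T, hT⟩ := hfg
  -- representatives and their levels
  have hrep : ∀ t : H1sm levelsAll N, ∃ c : ↥(Z1 levelsAll N), H1smπ levelsAll N c = t :=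
    fun t => Submodule.mkQ_surjective _ t
  choose rep hrep using hrep
  have hlev : ∀ t : H1sm levelsAll N, ∃ U ∈ levelsAll.sets,
      ∀ g s, s ∈ U → (rep t).1 (g * s) = (rep t).1 g := fun t => (rep t).2.2
  choose lev hlev hlev' using hlev
  obtain ⟨W₀, hW₀, hW₀le⟩ := st_exists_level_le levelsAll T lev (fun t _ => hlev t)
  obtain ⟨W, hW, hWle⟩ := levelsAll.directed W₀ hW₀ U₀ hU₀
  refine ⟨W, hW, hWle.trans inf_le_right, fun c hc => ?_⟩
  have hker : LinearMap.ker (H1smπ levelsAll N) ≤ stZW N W :=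
    st_ker_le_stZW N W fun s hs y => htriv s (hWle hs).2 y
  have hle : Ψ ≤ (stZW N W).map (H1smπ levelsAll N) := by
    rw [← hT, Submodule.span_le]
    intro t ht
    refine ⟨rep t, ?_, hrep t⟩
    intro g s hs
    exact hlev' t g s (hW₀le t ht (hWle hs).1)
  exact st_mem_of_map_mem (H1smπ levelsAll N) (stZW N W) hker c (hle hc)

end Fermat.Agent.S56.TW
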